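/-
Cluster E' (Mazur), seat DESC-COMM (helper84): the Hecke operators of `J₀(N)` commute.
Part 1 (abstract): functoriality of push-forward and pull-back of divisors along homomorphisms of
function fields whose places all have degree one.
-/
import Mathlib
import Fermat.Prelude.Def_AlgebraicCurve_Correspondence
import Fermat.Agent.MUL.Orig.Lib.RR.Basic
import Fermat.Agent.MUL.Lib.FF.PullJZero

set_option autoImplicit false
set_option linter.unusedSectionVars false
set_option linter.unusedVariables false
set_option linter.style.haveILetI false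

noncomputable section

open AlgebraicCurve

namespace Fermat.Agent.EDescComm

variable {K F F' F'' : Type*} [Field K] [Field F] [Field F'] [Field F'']
  [Algebra K F] [Algebra K F'] [Algebra K F'']

/-- integrality of a composition. -/
theorem isIntegral_comp (φ : F →ₐ[K] F') (ψ : F' →ₐ[K] F'')
    (hφ : φ.toRingHom.IsIntegral) (hψ : ψ.toRingHom.IsIntegral) :
    (ψ.comp φ).toRingHom.IsIntegral :=
  RingHom.IsIntegral.trans _ _ hφ hψ

theorem mem_restrictAlong_iff (φ : F →ₐ[K] F') (hφ : φ.toRingHom.IsIntegral) (w : Place K F')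
    (f : F) :
    f ∈ (w.restrictAlong φ hφ).toValuationSubring ↔ φ f ∈ w.toValuationSubring :=
  Iff.rfl

/-- restriction of places is functorial. -/
theorem restrictAlong_comp (φ : F →ₐ[K] F') (ψ : F' →ₐ[K] F'')
    (hφ : φ.toRingHom.IsIntegral) (hψ : ψ.toRingHom.IsIntegral)
    (h : (ψ.comp φ).toRingHom.IsIntegral) (w : Place K F'') :
    w.restrictAlong (ψ.comp φ) h = (w.restrictAlong ψ hψ).restrictAlong φ hφ := by
  apply Place.ext
  ext f
  rfl

/-- restriction of places only depends on the homomorphism. -/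
theorem restrictAlong_eq_of_eq {φ φ' : F →ₐ[K] F'} (hφφ' : φ = φ')
    (hφ : φ.toRingHom.IsIntegral) (hφ' : φ'.toRingHom.IsIntegral) (w : Place K F') :
    w.restrictAlong φ hφ = w.restrictAlong φ' hφ' := by
  subst hφφ'
  rfl

/-- the ramification index is characterised by any element of order one. -/
theorem ramificationIndexAlong_eq (φ : F →ₐ[K] F') (hφ : φ.toRingHom.IsIntegral)
    (w : Place K F') {t : F} (ht : (w.restrictAlong φ hφ).ord t = 1) :
    (Place.ramificationIndexAlong φ w : ℤ) = w.ord (φ t) := by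
  rw [Place.ord_restrictAlong φ hφ w t, ht, mul_one]

/-- the ramification index is multiplicative in towers. -/
theorem ramificationIndexAlong_comp (φ : F →ₐ[K] F') (ψ : F' →ₐ[K] F'')
    (hφ : φ.toRingHom.IsIntegral) (hψ : ψ.toRingHom.IsIntegral) (w : Place K F'') :
    Place.ramificationIndexAlong (ψ.comp φ) w =
      Place.ramificationIndexAlong ψ w *
        Place.ramificationIndexAlong φ (w.restrictAlong ψ hψ) := by
  have h := isIntegral_comp φ ψ hφ hψ
  obtain ⟨t, ht⟩ := Fermat.Agent.RR.exists_uniformizer ((w.restrictAlong ψ hψ).restrictAlong φ hφ)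
  have ht' : (w.restrictAlong (ψ.comp φ) h).ord t = 1 := by
    rw [restrictAlong_comp φ ψ hφ hψ h w]
    exact ht
  have h1 := ramificationIndexAlong_eq (ψ.comp φ) h w ht'
  have h2 : w.ord ((ψ.comp φ) t) = w.ord (ψ (φ t)) := rfl
  rw [h2, Place.ord_restrictAlong ψ hψ w (φ t),
    Place.ord_restrictAlong φ hφ (w.restrictAlong ψ hψ) t, ht, mul_one] at h1
  exact_mod_cast h1

/-- if all places have degree one, all inertia degrees are one. -/
theorem inertiaDegAlong_eq_one (φ : F →ₐ[K] F') (hφ : φ.toRingHom.IsIntegral)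
    (hF : ∀ v : Place K F, v.deg = 1) (hF' : ∀ w : Place K F', w.deg = 1) (w : Place K F') :
    w.inertiaDegAlong φ hφ = 1 := by
  letI := algebraAlong φ
  haveI := isScalarTower_along φ
  haveI := isIntegral_along φ hφ
  have h := w.deg_restrict_mul_inertiaDeg (F := F)
  rw [hF, hF', one_mul] at h
  exact h

/-- push-forward along a homomorphism, on a single place, when all places have degree one. -/
theorem pushforwardAlong_single_of_deg_one (φ : F →ₐ[K] F') (hφ : φ.toRingHom.IsIntegral)
    (hF : ∀ v : Place K F, v.deg = 1) (hF' : ∀ w : Place K F', w.deg = 1) (w : Place K F')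
    (n : ℤ) :
    Divisor.pushforwardAlong φ hφ (Finsupp.single w n) =
      Finsupp.single (w.restrictAlong φ hφ) n := by
  rw [Divisor.pushforwardAlong_single, inertiaDegAlong_eq_one φ hφ hF hF' w, Nat.cast_one,
    mul_one]

/-- push-forward is functorial. -/
theorem pushforwardAlong_comp (φ : F →ₐ[K] F') (ψ : F' →ₐ[K] F'')
    (hφ : φ.toRingHom.IsIntegral) (hψ : ψ.toRingHom.IsIntegral)
    (h : (ψ.comp φ).toRingHom.IsIntegral)
    (hF : ∀ v : Place K F, v.deg = 1) (hF' : ∀ w : Place K F', w.deg = 1)
    (hF'' : ∀ w : Place K F'', w.deg = 1) (D : Divisor K F'') :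
    Divisor.pushforwardAlong (ψ.comp φ) h D =
      Divisor.pushforwardAlong φ hφ (Divisor.pushforwardAlong ψ hψ D) := by
  induction D using Finsupp.induction with
  | zero => simp
  | single_add w n D _ _ ih =>
    rw [map_add, map_add, map_add, ih,
      pushforwardAlong_single_of_deg_one (ψ.comp φ) h hF hF'' w n,
      pushforwardAlong_single_of_deg_one ψ hψ hF' hF'' w n,
      pushforwardAlong_single_of_deg_one φ hφ hF hF' _ n, restrictAlong_comp φ ψ hφ hψ h w]

/-- pull-back is functorial. -/
theorem pullbackAlong_comp [HasPrincipalDivisors K F'] [HasPrincipalDivisors K F'']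
    (φ : F →ₐ[K] F') (ψ : F' →ₐ[K] F'')
    (hφ : φ.toRingHom.IsIntegral) (hψ : ψ.toRingHom.IsIntegral)
    (h : (ψ.comp φ).toRingHom.IsIntegral) (D : Divisor K F) :
    Divisor.pullbackAlong (ψ.comp φ) h D =
      Divisor.pullbackAlong ψ hψ (Divisor.pullbackAlong φ hφ D) := by
  ext w
  rw [Divisor.pullbackAlong_apply, Divisor.pullbackAlong_apply, Divisor.pullbackAlong_apply,
    ramificationIndexAlong_comp φ ψ hφ hψ w, restrictAlong_comp φ ψ hφ hψ h w]
  push_cast
  ring

/-- pull-back only depends on the homomorphism. -/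
theorem pullbackAlong_eq_of_eq [HasPrincipalDivisors K F'] {φ φ' : F →ₐ[K] F'} (hφφ' : φ = φ')
    (hφ : φ.toRingHom.IsIntegral) (hφ' : φ'.toRingHom.IsIntegral) (D : Divisor K F) :
    Divisor.pullbackAlong φ hφ D = Divisor.pullbackAlong φ' hφ' D := by
  subst hφφ'
  rfl

/-- push-forward only depends on the homomorphism. -/
theorem pushforwardAlong_eq_of_eq {φ φ' : F →ₐ[K] F'} (hφφ' : φ = φ')
    (hφ : φ.toRingHom.IsIntegral) (hφ' : φ'.toRingHom.IsIntegral) (D : Divisor K F') :
    Divisor.pushforwardAlong φ hφ D = Divisor.pushforwardAlong φ' hφ' D := by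
  subst hφφ'
  rfl

end Fermat.Agent.EDescComm
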